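import Fermat.Agent.S15.ATP.J
import Fermat.Agent.S15.Top
import Fermat.Agent.Lib.Frobenius

/-!
# S15-ATP: EXPORT = the contract `RAtP` of `S15/Top.lean`
-/

set_option autoImplicit false
set_option synthInstance.maxHeartbeats 400000

noncomputable section

namespace Fermat.Agent.S15.ATP

open ModularCurve

/-- the contract (AT p), for every odd prime `p`, every prime `ℓ ≠ p` and EVERY place `A` over `p`. -/
theorem rAtP {p ℓ : ℕ} [NeZero p] [NeZero (p * 4)] (hp : p.Prime) (hp2 : p ≠ 2) (hℓ : ℓ.Prime)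
    (hℓp : ℓ ≠ p) {A : ValuationSubring Qb} (hA : A.LiesOverPrime p) :
    RAtP (JZero p) p ℓ A (W p ℓ hℓ.pos A) :=
  ⟨W_le hℓ.pos, W_decomp hp hp2 hℓ.pos, W_inert hp hp2 hℓ.pos, W_fix hp hp2 hA hℓ hℓp,
    W_frob hp hp2 hA hℓ hℓp⟩

/-- the input `AtPIn` of `S15/Geom/Main.lean`, for `p ≠ 2`. -/
theorem atPIn (p lam : ℕ) (hp : p.Prime) (hp2 : p ≠ 2) (hlam : lam.Prime) (hne : lam ≠ p) :
    ∃ (Ap : ValuationSubring Qb) (W : AddSubgroup (JZero p)), Ap.LiesOverPrime p ∧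
      RAtP (JZero p) p lam Ap W := by
  have : NeZero p := ⟨hp.ne_zero⟩
  have : NeZero (p * 4) := ⟨mul_ne_zero hp.ne_zero (by norm_num)⟩
  obtain ⟨A, hA⟩ := Fermat.Agent.Lib.Frobenius.exists_liesOverPrime (K := Qb) p hp
  exact ⟨A, _, hA, rAtP hp hp2 hlam hne hA⟩

end Fermat.Agent.S15.ATP
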