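import Fermat.Agent.S15.ATP.Conc.Core
import Fermat.Agent.GT.Loc.N1Conc
import Fermat.Agent.GT.Brg.Main
import Fermat.Agent.GS.Export

/-!
# S15-ATP, bridge: from the concrete core over a good field `L` to `GS.TrivAt` over `ℚ̄`
-/

set_option autoImplicit false
set_option synthInstance.maxHeartbeats 400000

noncomputable section

namespace Fermat.Agent.S15.ATP

open Fermat.Agent.GR Fermat.Agent.GR.E Fermat.Agent.GR.D.Vert Fermat.Agent.GS Fermat.Agent.GS.Inst
  Fermat.Agent.GT Fermat.Agent.GT.Brg Fermat.Agent.GT.Loc Fermat.Agent.GT.EMB ModularCurve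

theorem Bridge_tF_eq (K : Type) [Field K] (hr0 : Fermat.Agent.C36.Unit.BaseCase.two.r ∣ 4) :
    Fermat.Agent.C36.Unit.BaseCase.two.tF K hr0 = tF K := by
  apply Subtype.ext
  rw [Fermat.Agent.C36.Unit.BaseCase.coe_tF]
  exact (GR.D.Top.CaseH2_baseFn K).symm

/-- all the nodes of the chart of level `p * 4` are regular: `GT.Loc.N1C_node_good C36.Unit.BaseCase.two hp _ _ _ A hA hL hϖ rfl (-1) (Or.inr rfl)`
(`q := p`, `N0 := 4`), up to: `BaseCase.two.tF L _ ^ (-1 : ℤ) = (tF L)⁻¹` (`zpow_neg_one`; `Subtype.ext`, `BaseCase.coe_tF`,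
`GR.D.Top.CaseH2_baseFn`), `Val.up (Val.dvd_q0 p 4) x = algebraMap _ _ x` (`GT.Loc.N1C_algebraMap_eq_up`, `rfl`),
`Val.Ozero' R p 4 = opp (gaussO R (p * 4)) (wR R p)` (`GT.Loc.N1C_opp_eq`, `rfl`). -/
theorem regNodes {p : ℕ} [NeZero p] [NeZero (p * 4)] (hp : p.Prime) (hp2 : p ≠ 2)
    {A : ValuationSubring Qb} (hA : A.LiesOverPrime p) {S : Finset Qb}
    {L : IntermediateField ℚ Qb} [IsDiscreteValuationRing (RL A L)] (hL : GoodField A S L) :
    ∀ 𝔪 : Ideal (chartP (RL A L) p), 𝔪.IsMaximal →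
        vert ((p : ℕ) : RL A L) (gaussO (RL A L) (p * 4)) (chartP (RL A L) p) ≤ 𝔪 →
        vert ((p : ℕ) : RL A L) (opp (gaussO (RL A L) (p * 4)) (wR (RL A L) p))
          (chartP (RL A L) p) ≤ 𝔪 →
        RegNode ((p : ℕ) : RL A L) (gaussO (RL A L) (p * 4))
          (opp (gaussO (RL A L) (p * 4)) (wR (RL A L) p)) (chartP (RL A L) p) 𝔪 := by
  have hpN : ¬ p ∣ 4 := by
    intro h
    have h2 : p ∣ 2 := by
      have : p ∣ 2 * 2 := by simpa using h
      rcases (Nat.Prime.dvd_mul hp).1 this with h | h <;> exact h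
    exact hp2 ((Nat.prime_dvd_prime_iff_eq hp Nat.prime_two).1 h2)
  have hl0 : Fermat.Agent.C36.Unit.BaseCase.two.lvl ∣ 4 := dvd_rfl
  have hr0 : Fermat.Agent.C36.Unit.BaseCase.two.r ∣ 4 := ⟨2, rfl⟩
  have key := GT.Loc.N1C_node_good Fermat.Agent.C36.Unit.BaseCase.two hp hpN hl0 hr0 A hA hL
    (irreducible_p hp hA hL) rfl (-1) (Or.inr rfl)
  rw [zpow_neg_one, Bridge_tF_eq L hr0] at key
  exact key

theorem Bridge_coeff_C_mul {K : Type*} [Field K] (r : K) (f : LaurentSeries K) (k : ℤ) :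
    (HahnSeries.C r * f).coeff k = r * f.coeff k := by
  rw [HahnSeries.C_mul_eq_smul, HahnSeries.coeff_smul, smul_eq_mul]

theorem Bridge_mul_mem_nonunits {K : Type*} [Field K] (V : ValuationSubring K) {a b : K}
    (ha : a ∈ V.nonunits) (hb : b ∈ V) : a * b ∈ V.nonunits := by
  rw [ValuationSubring.mem_nonunits_iff, map_mul] at *
  rw [← ValuationSubring.valuation_le_one_iff] at hb
  exact mul_lt_one_of_lt_of_le ha hb

theorem Bridge_sub_mem_nonunits {K : Type*} [Field K] (V : ValuationSubring K) {a b : K}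
    (ha : a ∈ V.nonunits) (hb : b ∈ V.nonunits) : a - b ∈ V.nonunits := by
  rw [ValuationSubring.mem_nonunits_iff] at *
  exact lt_of_le_of_lt (V.valuation.map_sub a b) (max_lt ha hb)

theorem Bridge_mem_of_mem_nonunits {K : Type*} [Field K] (V : ValuationSubring K) {a : K}
    (ha : a ∈ V.nonunits) : a ∈ V := by
  rw [ValuationSubring.mem_nonunits_iff] at ha
  exact (V.valuation_le_one_iff a).1 ha.le

/-- `z ^ n y ≡ c` modulo `ϖ` at the Gauss valuation, `c` a unit, gives `TrivAt`.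
[`x := (z ^ n y - c) / ϖ`; `gaussO_spec`: `x g = f`, `f` integral, `g` primitive over `R = A ∩ L`, both in `FF L N`.  So `z ^ n y / c = a₀ / g`,
`a₀ := g + C (ϖ / c) f`.  Take `a := coeffMap ι a₀`, `b := coeffMap ι g` (`ι = algebraMap L Qb`): `a - b` has coefficients in `𝔪_A`, `b` is
primitive, hence so is `a`; `KummerEquiv`: `Z := coeffMap ι z / C γ`, `γ ^ n = ι c` (`IsAlgClosed.exists_pow_nat_eq`).  Compare
`GR.E.BR7_isGaussInt` (the converse), `GR.S.R.Tr3_mapFF_mem` (base change of `IsInt`, `IsPrim`), `BR7_coe_algebraMap`, `BR7_mem_nonunits_comap`.] -/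
theorem bridge {A : ValuationSubring Qb} {L : IntermediateField ℚ Qb}
    [IsDiscreteValuationRing (RL A L)] {N n : ℕ} (hn : 0 < n) {y z : FF L N} (hz : z ≠ 0)
    {c ϖ : RL A L} (hc : IsUnit c) (hϖ : Irreducible ϖ)
    (h : (z ^ n * y - algebraMap (RL A L) (FF L N) c) / algebraMap (RL A L) (FF L N) ϖ ∈
      gaussO (RL A L) N) :
    TrivAt N n A (coeffMap (algebraMap L Qb) (y : LaurentSeries L)) := by
  obtain ⟨f, g, hf, hg, hfi, hgp, hxg⟩ := (gaussO_spec (RL A L) N _).1 h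
  have hϖ0 : (ϖ : L) ≠ 0 := fun h0 => hϖ.ne_zero (Subtype.ext h0)
  have hc0 : (c : L) ≠ 0 := fun h0 => hc.ne_zero (Subtype.ext h0)
  have hCϖ : (HahnSeries.C (ϖ : L) : LaurentSeries L) ≠ 0 := by
    rw [Ne, map_eq_zero]; exact hϖ0
  have hCc : (HahnSeries.C (c : L) : LaurentSeries L) ≠ 0 := by
    rw [Ne, map_eq_zero]; exact hc0
  have hg0 : g ≠ 0 := by
    rintro rfl
    obtain ⟨k, hk⟩ := hgp.2
    apply hk
    rw [HahnSeries.coeff_zero]
    exact (ValuationSubring.mem_nonunits_iff _).2 (by simp)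
  rw [IntermediateField.coe_div, AddSubgroupClass.coe_sub, IntermediateField.coe_mul,
    IntermediateField.coe_pow, BR7_coe_algebraMap, BR7_coe_algebraMap] at hxg
  -- the key identity
  set a₀ : LaurentSeries L := g + HahnSeries.C ((ϖ : L) / (c : L)) * f with ha₀
  have hkey : (z : LaurentSeries L) ^ n * (y : LaurentSeries L) * g = HahnSeries.C (c : L) * a₀ := by
    have h1 : ((z : LaurentSeries L) ^ n * (y : LaurentSeries L) - HahnSeries.C (c : L)) * g =
        HahnSeries.C (ϖ : L) * f := by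
      rw [← hxg]; field_simp
    have h2 : (HahnSeries.C (c : L) : LaurentSeries L) * HahnSeries.C ((ϖ : L) / (c : L)) =
        HahnSeries.C (ϖ : L) := by
      rw [← map_mul, mul_div_cancel₀ _ hc0]
    rw [ha₀, mul_add, ← mul_assoc, h2, ← h1]; ring
  obtain ⟨γ, hγ⟩ := IsAlgClosed.exists_pow_nat_eq (algebraMap L Qb (c : L)) hn
  have hιc0 : algebraMap L Qb (c : L) ≠ 0 := by
    rw [Ne, map_eq_zero]; exact hc0
  have hγ0 : γ ≠ 0 := by
    rintro rfl
    rw [zero_pow hn.ne'] at hγ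
    exact hιc0 hγ.symm
  have hquot : (ϖ : L) / (c : L) ∈ (RL A L).nonunits := by
    obtain ⟨u, rfl⟩ := hc
    have h1 : (ϖ : L) / ((u : RL A L) : L) = ((ϖ * (u⁻¹ : (RL A L)ˣ) : RL A L) : L) := by
      rw [div_eq_iff hc0]
      have : ((ϖ * (u⁻¹ : (RL A L)ˣ) : RL A L) : L) * ((u : RL A L) : L) =
          ((ϖ * (u⁻¹ : (RL A L)ˣ) * u : RL A L) : L) := rfl
      rw [this, mul_assoc, Units.inv_mul, mul_one]
    rw [h1, ValuationSubring.coe_mem_nonunits_iff, IsLocalRing.mem_maximalIdeal, mem_nonunits_iff]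
    intro hu
    exact hϖ.not_isUnit (isUnit_of_mul_isUnit_left hu)
  have ha₀mem : a₀ ∈ FF L N := add_mem hg (mul_mem (C_mem_FF _) hf)
  have hcong : ∀ k : ℤ, a₀.coeff k - g.coeff k ∈ (RL A L).nonunits := by
    intro k
    rw [ha₀, HahnSeries.coeff_add, add_sub_cancel_left, Bridge_coeff_C_mul]
    exact Bridge_mul_mem_nonunits _ hquot (hfi k)
  have hCong : Cong A (coeffMap (algebraMap L Qb) a₀) (coeffMap (algebraMap L Qb) g) := by
    intro k
    rw [coeffMap_coeff, coeffMap_coeff, ← map_sub]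
    exact (BR7_mem_nonunits_comap (algebraMap L Qb) A _).1 (hcong k)
  have hbInt : IsInt A (coeffMap (algebraMap L Qb) g) := by
    intro k
    rw [coeffMap_coeff]
    exact hgp.1 k
  have haPrim : IsPrim A (coeffMap (algebraMap L Qb) a₀) := by
    refine ⟨fun k => ?_, ?_⟩
    · have h1 := A.add_mem _ _ (Bridge_mem_of_mem_nonunits A (hCong k)) (hbInt k)
      rwa [sub_add_cancel] at h1
    · obtain ⟨k, hk⟩ := hgp.2
      refine ⟨k, fun hak => hk ?_⟩
      rw [BR7_mem_nonunits_comap (algebraMap L Qb) A]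
      have h1 := Bridge_sub_mem_nonunits A hak (hCong k)
      rwa [sub_sub_cancel, coeffMap_coeff] at h1
  refine ⟨coeffMap (algebraMap L Qb) a₀, coeffMap (algebraMap L Qb) g,
    E.coeffMap_mem_FF _ N ha₀mem, E.coeffMap_mem_FF _ N hg, haPrim, hbInt, hCong,
    coeffMap (algebraMap L Qb) (z : LaurentSeries L) * HahnSeries.C γ⁻¹,
    mul_mem (E.coeffMap_mem_FF _ N z.2) (C_mem_FF _), ?_, ?_⟩
  · refine mul_ne_zero ?_ ?_
    · rw [Ne, map_eq_zero]
      exact fun h0 => hz (Subtype.ext h0)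
    · rw [Ne, map_eq_zero]
      exact inv_ne_zero hγ0
  · have hb0 : coeffMap (algebraMap L Qb) g ≠ 0 := by
      rw [Ne, map_eq_zero]; exact hg0
    rw [div_eq_iff hb0, mul_pow, ← map_pow, ← map_pow, inv_pow, hγ]
    have h3 := congrArg (coeffMap (algebraMap L Qb)) hkey
    rw [map_mul, map_mul, map_mul, D.Vert.coeffMap_C] at h3
    have hCιc : (HahnSeries.C (algebraMap L Qb (c : L)) : LaurentSeries Qb) ≠ 0 := by
      rw [Ne, map_eq_zero]; exact hιc0
    have h4 : (HahnSeries.C (algebraMap L Qb (c : L))⁻¹ : LaurentSeries Qb) =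
        (HahnSeries.C (algebraMap L Qb (c : L)) : LaurentSeries Qb)⁻¹ := map_inv₀ _ _
    rw [h4]
    field_simp
    rw [mul_comm _ (HahnSeries.C _), ← h3]
    ring

/-- a Kummer function over a good field which is a unit at both Gauss valuations is trivial at `v_∞`. -/
theorem trivAt_of_units {p : ℕ} [NeZero p] [NeZero (p * 4)] (hp : p.Prime) (hp2 : p ≠ 2)
    {A : ValuationSubring Qb} (hA : A.LiesOverPrime p) {S : Finset Qb}
    {L : IntermediateField ℚ Qb} [IsDiscreteValuationRing (RL A L)] (hL : GoodField A S L)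
    {n : ℕ} (hn : 0 < n) {y : FF L (p * 4)} (hy0 : y ≠ 0)
    (hy₁ : y ∈ gaussO (RL A L) (p * 4)) (hy₁' : y⁻¹ ∈ gaussO (RL A L) (p * 4))
    (hy₂ : wQ L p 4 y ∈ gaussO (RL A L) (p * 4)) (hy₂' : (wQ L p 4 y)⁻¹ ∈ gaussO (RL A L) (p * 4))
    (hK : IsKummer (N := p * 4) n (coeffMap (algebraMap L Qb) (y : LaurentSeries L))) :
    TrivAt (p * 4) n A (coeffMap (algebraMap L Qb) (y : LaurentSeries L)) := by
  obtain ⟨z, hz, c, hc, h⟩ := conc_core hp hp2 hA hL (regNodes hp hp2 hA hL) hn hy0 hy₁ hy₁' hy₂ hy₂'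
    (divisibleAtPlaces_of_isKummer certDescent L (RL A L) (p * 4) n hn y hK)
  exact bridge hn hz hc (irreducible_p hp hA hL) h

end Fermat.Agent.S15.ATP
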