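import Fermat.Agent.GS.Export

/-!
# S15-ATP: the predicate `InW`

`p` an odd prime, `A` a place of `ℚ̄` over `p`.  `InW p n A u`: the function `u` of level `p * 4` is, up to `n`-th powers, `≡ 1`
at BOTH Gauss valuations of `FF ℚ̄ (p * 4)` attached to `A` (`v_∞` and `v_0 = v_∞ ∘ w_p`): the class of `u` lies in the
toric part.
-/

set_option autoImplicit false

noncomputable section

namespace Fermat.Agent.S15.ATP

open Fermat.Agent.GR Fermat.Agent.GS Fermat.Agent.GT.EMB ModularCurve

/-- the class of `u` is trivial on both components of the fibre at `A` of the curve of level `p * 4`. -/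
def InW (p n : ℕ) [NeZero (p * 4)] (A : ValuationSubring Qbar) (u : LaurentSeries Qbar) : Prop :=
  ∃ hu : u ∈ FF Qbar (p * 4), TrivAt (p * 4) n A u ∧
    TrivAt (p * 4) n A ((wQ Qbar p 4 ⟨u, hu⟩ : FF Qbar (p * 4)) : LaurentSeries Qbar)

end Fermat.Agent.S15.ATP
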