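import Fermat.Agent.S15.ATP.Formal
import Fermat.Agent.S15.ATP.Bridge
import Fermat.Agent.S15.ATP.Hecke.Eta
import Fermat.Agent.GR.C.FixedRep
import Fermat.Agent.GT.W.Unram
import Fermat.Agent.GT.Val.Conc.Ctx

/-!
# S15-ATP: (E4) `η_q` maps the inertia invariant Kummer classes of level `p * 4` into `W`
-/

set_option autoImplicit false
set_option synthInstance.maxHeartbeats 400000

noncomputable section

namespace Fermat.Agent.S15.ATP

open Fermat.Agent.GR Fermat.Agent.GR.E Fermat.Agent.GR.D.Vert Fermat.Agent.GS Fermat.Agent.GS.Inst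
  Fermat.Agent.GT Fermat.Agent.GT.Brg Fermat.Agent.GT.Loc Fermat.Agent.GT.EMB ModularCurve

variable {p q n : ℕ} [NeZero p] [NeZero (p * 4)] [NeZero q] {A : ValuationSubring Qb} {ζ : Qbarˣ}

/-- `w_p` over `L` and over `ℚ̄`. -/
theorem coeffMap_wQ (hcop : p.Coprime 4) {L : IntermediateField ℚ Qb} (y : FF L (p * 4)) :
    coeffMap (algebraMap L Qb) ((wQ L p 4 y : FF L (p * 4)) : LaurentSeries L) =
      ((wQ Qb p 4 (mapFF (algebraMap L Qb) (p * 4) y) : FF Qb (p * 4)) : LaurentSeries Qb) := by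
  obtain ⟨ι⟩ := nonempty_Qbar_hom
  rw [← mapFF_wQ ι (algebraMap L Qb) p 4 hcop y, coe_mapFF]

/-- the core over a good field containing `ζ`. -/
theorem eta_core (hp : p.Prime) (hp2 : p ≠ 2) (hA : A.LiesOverPrime p) {S : Finset Qb}
    {L : IntermediateField ℚ Qb} (hL : GoodField A S L) (hn : 0 < n) (hq : q.Prime)
    (hqN : ¬ q ∣ p * 4) (hζ : IsPrimitiveRoot ζ q) (hζL : (ζ : Qb) ∈ L) (u : FF L (p * 4))
    (hK : IsKummer (N := p * 4) n (coeffMap (algebraMap L Qb) (u : LaurentSeries L))) :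
    InW p n A (eta q ζ (coeffMap (algebraMap L Qb) (u : LaurentSeries L))) := by
  have := hL.fin
  have : IsDiscreteValuationRing (RL A L) := GT.Val.Conc.dvr_RL hp hA L
  have hcop4 : p.Coprime 4 := by
    have : p.Coprime 2 := (Nat.coprime_primes hp Nat.prime_two).2 hp2
    exact Nat.Coprime.pow_right 2 this
  have hqp : q ≠ p := fun h => hqN (h ▸ Dvd.intro 4 rfl)
  have hcop : p.Coprime (4 * q) :=
    Nat.Coprime.mul_right hcop4 ((Nat.coprime_primes hp hq).2 (Ne.symm hqp))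
  have : NeZero (p * (4 * q)) := ⟨mul_ne_zero hp.ne_zero (mul_ne_zero (by norm_num) hq.ne_zero)⟩
  obtain ⟨ι⟩ := nonempty_Qbar_hom
  set U : FF Qb (p * 4) := mapFF (algebraMap L Qb) (p * 4) u with hU
  have hUc : (U : LaurentSeries Qb) = coeffMap (algebraMap L Qb) (u : LaurentSeries L) :=
    coe_mapFF _ _ _
  rw [← hUc] at hK ⊢
  have hU0 : (U : LaurentSeries Qb) ≠ 0 := hK.ne_zero
  obtain ⟨y, hy⟩ := exists_eta_over hq hqN hζ hζL u
  rw [← hUc] at hy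
  have hmem : eta q ζ (U : LaurentSeries Qb) ∈ FF Qb (p * 4) := eta_mem hq hqN hζ U.2
  have hyY : mapFF (algebraMap L Qb) (p * 4) y = ⟨eta q ζ (U : LaurentSeries Qb), hmem⟩ :=
    Subtype.ext (by rw [coe_mapFF, hy])
  have hy0 : y ≠ 0 := by
    rintro rfl
    apply eta_ne_zero hζ hU0
    rw [← hy]
    simp
  -- `w y`
  have hwy : coeffMap (algebraMap L Qb) ((wQ L p 4 y : FF L (p * 4)) : LaurentSeries L) =
      eta q ζ ((wQ Qb p 4 U : FF Qb (p * 4)) : LaurentSeries Qb) := by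
    rw [coeffMap_wQ hcop4, hyY, wQ_eta hq hqN hcop hζ U hmem]
  have hwU0 : ((wQ Qb p 4 U : FF Qb (p * 4)) : LaurentSeries Qb) ≠ 0 := by
    intro h
    have h1 : wQ Qb p 4 U = 0 := Subtype.ext h
    rw [EmbeddingLike.map_eq_zero_iff] at h1
    exact hU0 (by rw [h1]; rfl)
  -- units
  obtain ⟨a, b, ha, hb, hpa, hpb, hab⟩ := eta_eq_div hp hA hq hqp hqN ζ hζ U.2 hU0
  obtain ⟨h₁, h₁'⟩ := mem_gaussO_of_prim_div (y := y) ha hb hpa hpb (hy.trans hab)
  obtain ⟨a', b', ha', hb', hpa', hpb', hab'⟩ :=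
    eta_eq_div hp hA hq hqp hqN ζ hζ (wQ Qb p 4 U).2 hwU0
  obtain ⟨h₂, h₂'⟩ := mem_gaussO_of_prim_div (y := wQ L p 4 y) ha' hb' hpa' hpb' (hwy.trans hab')
  -- Kummer
  have hKy : IsKummer (N := p * 4) n (coeffMap (algebraMap L Qb) (y : LaurentSeries L)) := by
    rw [hy]
    exact isKummer_eta hq hqN hζ hK
  have hKwy : IsKummer (N := p * 4) n
      (coeffMap (algebraMap L Qb) ((wQ L p 4 y : FF L (p * 4)) : LaurentSeries L)) := by
    rw [hwy]
    exact isKummer_eta hq hqN hζ (FW.isKummer_algEquiv (wQ Qb p 4) U hK)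
  have hww : wQ L p 4 (wQ L p 4 y) = y := wQ_wQ (ι.comp (algebraMap L Qb)) p 4 hcop4 y
  have hwy0 : wQ L p 4 y ≠ 0 := (map_ne_zero _).2 hy0
  have t₁ := trivAt_of_units hp hp2 hA hL hn hy0 h₁ h₁' h₂ h₂' hKy
  have t₂ := trivAt_of_units hp hp2 hA hL hn hwy0 h₂ h₂' (by rw [hww]; exact h₁)
    (by rw [hww]; exact h₁') hKwy
  refine ⟨hmem, ?_, ?_⟩
  · rwa [hy] at t₁
  · rwa [coeffMap_wQ hcop4, hyY] at t₂

/-- **(E4)** -/
theorem inW_eta (hp : p.Prime) (hp2 : p ≠ 2) (hA : A.LiesOverPrime p) (hn : 0 < n) (hq : q.Prime)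
    (hqN : ¬ q ∣ p * 4) (hζ : IsPrimitiveRoot ζ q) {u : LaurentSeries Qbar}
    (hu : IsKummer (N := p * 4) n u)
    (hI : ∀ σ ∈ A.inertiaSubgroupIn ℚ, KummerEquiv (p * 4) n u (gal σ u)) :
    InW p n A (eta q ζ u) := by
  have hqp : ¬ p ∣ q := fun h => hqN (((Nat.prime_dvd_prime_iff_eq hp hq).1 h) ▸ Dvd.intro 4 rfl)
  obtain ⟨w0, hw0, -, hfix⟩ := C.exists_fixed_rep_Qbar hn hu.mem hu.ne_zero
  have hw0K : IsKummer (N := p * 4) n w0 := by
    obtain ⟨z, hz, hz0, rfl⟩ := hw0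
    exact hu.mul (isKummer_pow_self hz hz0)
  obtain ⟨L0, hfin, hL0, hdef⟩ := GT.W.Unram_exists_inertFixed_field A hw0K.mem
    (fun τ hτ => hfix τ (hI τ hτ))
  have hζI : InertFixedElt A (ζ : Qb) :=
    inertFixedElt_of_pow hp hA hqp (b := 1) (fun τ _ => map_one τ) A.one_mem
      (by rw [inv_one]; exact A.one_mem)
      (by rw [← Units.val_pow_eq_pow_val, hζ.pow_eq_one, Units.val_one])
  obtain ⟨L, hL, hle⟩ := exists_goodField_ge L0 hL0 {(ζ : Qb)} (by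
    intro x hx
    rw [Finset.mem_singleton] at hx
    rw [hx]
    exact hζI)
  obtain ⟨u0, hu0, hu0eq⟩ := BR3_mono (p * 4) hle hdef
  have key := eta_core hp hp2 hA hL hn hq hqN hζ (hL.big _ (Finset.mem_singleton_self _)) ⟨u0, hu0⟩
    (by rw [hu0eq]; exact hw0K)
  rw [hu0eq] at key
  obtain ⟨z, hz, hz0, hzeq⟩ := eta_congr hq hqN hζ hu.ne_zero hw0
  refine key.congr hn ⟨z⁻¹, inv_mem hz, inv_ne_zero hz0, ?_⟩
  rw [hzeq, inv_pow, mul_assoc, mul_inv_cancel₀ (pow_ne_zero _ hz0), mul_one]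

end Fermat.Agent.S15.ATP
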