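import Fermat.Agent.S15.ATP.Defs
import Fermat.Agent.GS.FW.Pow
import Fermat.Agent.GS.Inst.Main
import Fermat.Agent.GS.Bridge.Out
import Fermat.Agent.S33.Wire.Triv
import Fermat.Agent.GS.Inst.Out

/-!
# S15-ATP, formal layer: calculus of `TrivAt` and `InW`, and the two exports of GS at level `p * 4`

TOOLS. `GS.trivAt_of_powAt`, `GS.powAt_of_trivAt` (`GS/Export.lean`) reduce `TrivAt` to `FW.PowAt`, whose calculus is in `GS/FW/Pow.lean`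
(`PowAt.mul/inv/div/pow/gal/congr`, `powAt_pow_self`) and `GS/FW/Near.lean` (`NearOne.*`).  `wQ Qbar p 4` is an `AlgEquiv`
(`map_mul`, `map_inv₀`, `map_pow`); never prove equalities of elements of `FF` by `rfl`: use `Subtype.ext` and the `coe_*` lemmas
(`MulMemClass.coe_mul`, `SubmonoidClass.coe_pow`, `IntermediateField.coe_inv`).  `GS.isWQ_wQ ι hcop`, `GS.IsWQ.gal_comm`
(`GS/WQ.lean`), `GS.nonempty_Qbar_hom`.  MODEL for everything: the proof of `GS.unip_of_nodalInertia` (`GS/Export.lean`).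
-/

set_option autoImplicit false
set_option synthInstance.maxHeartbeats 400000

noncomputable section

namespace Fermat.Agent.S15.ATP

open Fermat.Agent.GR Fermat.Agent.GR.E Fermat.Agent.GS Fermat.Agent.GT.EMB ModularCurve

variable {N n : ℕ} {A : ValuationSubring Qbar} {u v : LaurentSeries Qbar}

/-! ### `TrivAt` -/

theorem trivAt_one (hn : 0 < n) : TrivAt N n A 1 := by
  exact S33.trivAt_one N n A

theorem trivAt_mul (hn : 0 < n) (hu : TrivAt N n A u) (hv : TrivAt N n A v) :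
    TrivAt N n A (u * v) := by
  exact S33.trivAt_mul hu hv

theorem trivAt_inv (hn : 0 < n) (hu : TrivAt N n A u) : TrivAt N n A u⁻¹ := by
  exact S33.trivAt_inv hu

theorem trivAt_congr (hn : 0 < n) (hu : TrivAt N n A u) (h : KummerEquiv N n u v) :
    TrivAt N n A v := by
  exact S33.trivAt_congr hu h

theorem trivAt_gal (hn : 0 < n) {σ : Qbar ≃ₐ[ℚ] Qbar} (hσ : σ ∈ A.decompositionSubgroup ℚ)
    (hu : TrivAt N n A u) : TrivAt N n A (gal σ u) := by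
  exact trivAt_of_powAt hn ((powAt_of_trivAt hu).gal hσ)

/-- `u = (a / b) z ^ n` gives `u ^ k = (a ^ k / b ^ k) z ^ (n k)`. -/
theorem trivAt_pow_level (hn : 0 < n) {k : ℕ} (hk : 0 < k) (hu : TrivAt N n A u) :
    TrivAt N (n * k) A (u ^ k) := by
  obtain ⟨f, g, z, hf, hg, hfg, hf0, hz, hz0, e⟩ := S33.Triv_iff.mp hu
  refine S33.Triv_iff.mpr ⟨f ^ k, g ^ k, z, ?_, ?_, ?_, ?_, hz, hz0, ?_⟩
  · rw [map_pow]; exact pow_mem hf k
  · rw [map_pow]; exact pow_mem hg k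
  · rw [map_pow, map_pow, hfg]
  · rw [map_pow]; exact pow_ne_zero k hf0
  · rw [map_pow, map_pow, ← div_pow, e, mul_pow, ← pow_mul]

/-! ### `InW` -/

variable {p : ℕ} [NeZero (p * 4)]

theorem InW.mem (h : InW p n A u) : u ∈ FF Qbar (p * 4) := h.1

theorem inW_one (hn : 0 < n) : InW p n A 1 := by
  refine ⟨one_mem _, trivAt_one hn, ?_⟩
  have e : (⟨1, one_mem _⟩ : FF Qbar (p * 4)) = 1 := rfl
  rw [e, map_one]
  exact trivAt_one hn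

theorem InW.mul (hn : 0 < n) (hu : InW p n A u) (hv : InW p n A v) : InW p n A (u * v) := by
  obtain ⟨hu1, hu2, hu3⟩ := hu
  obtain ⟨hv1, hv2, hv3⟩ := hv
  refine ⟨mul_mem hu1 hv1, trivAt_mul hn hu2 hv2, ?_⟩
  have e : (⟨u * v, mul_mem hu1 hv1⟩ : FF Qbar (p * 4)) = ⟨u, hu1⟩ * ⟨v, hv1⟩ := rfl
  rw [e, map_mul]
  exact trivAt_mul hn hu3 hv3

theorem InW.inv (hn : 0 < n) (hu : InW p n A u) : InW p n A u⁻¹ := by
  obtain ⟨hu1, hu2, hu3⟩ := hu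
  refine ⟨inv_mem hu1, trivAt_inv hn hu2, ?_⟩
  have e : (⟨u⁻¹, inv_mem hu1⟩ : FF Qbar (p * 4)) = (⟨u, hu1⟩ : FF Qbar (p * 4))⁻¹ := rfl
  rw [e, map_inv₀]
  exact trivAt_inv hn hu3

theorem InW.congr (hn : 0 < n) (hu : InW p n A u) (h : KummerEquiv (p * 4) n u v) :
    InW p n A v := by
  obtain ⟨hu1, hu2, hu3⟩ := hu
  obtain ⟨z, hz, hz0, rfl⟩ := h
  have hm : u * z ^ n ∈ FF Qbar (p * 4) := mul_mem hu1 (pow_mem hz n)
  refine ⟨hm, trivAt_congr hn hu2 ⟨z, hz, hz0, rfl⟩, ?_⟩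
  have e : (⟨u * z ^ n, hm⟩ : FF Qbar (p * 4)) = ⟨u, hu1⟩ * (⟨z, hz⟩ : FF Qbar (p * 4)) ^ n := rfl
  rw [e, map_mul, map_pow]
  refine trivAt_congr hn hu3 ⟨(wQ Qbar p 4 ⟨z, hz⟩ : FF Qbar (p * 4)), (wQ Qbar p 4 ⟨z, hz⟩).2, ?_, rfl⟩
  intro h0
  have h1 : wQ Qbar p 4 ⟨z, hz⟩ = 0 := Subtype.ext h0
  rw [map_eq_zero] at h1
  exact hz0 (congrArg Subtype.val h1)

theorem InW.pow_level (hn : 0 < n) {k : ℕ} (hk : 0 < k) (hu : InW p n A u) :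
    InW p (n * k) A (u ^ k) := by
  obtain ⟨hu1, hu2, hu3⟩ := hu
  refine ⟨pow_mem hu1 k, trivAt_pow_level hn hk hu2, ?_⟩
  have e : (⟨u ^ k, pow_mem hu1 k⟩ : FF Qbar (p * 4)) = (⟨u, hu1⟩ : FF Qbar (p * 4)) ^ k := rfl
  rw [e, map_pow]
  exact trivAt_pow_level hn hk hu3

/-- stability under the decomposition group (`hcop : p.Coprime 4`, `IsWQ.gal_comm`). -/
theorem InW.gal (hcop : p.Coprime 4) (hn : 0 < n) {σ : Qbar ≃ₐ[ℚ] Qbar}
    (hσ : σ ∈ A.decompositionSubgroup ℚ) (hu : InW p n A u) : InW p n A (gal σ u) := by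
  obtain ⟨hu1, hu2, hu3⟩ := hu
  obtain ⟨ι⟩ := nonempty_Qbar_hom
  have hw := isWQ_wQ ι hcop
  have hm : GR.gal σ u ∈ FF Qbar (p * 4) := coeffMap_mem_FF _ hu1
  refine ⟨hm, trivAt_gal hn hσ hu2, ?_⟩
  have h := S33.wfun_gal hcop hw σ hu1
  rw [S33.wfun_of_mem _ hm, S33.wfun_of_mem _ hu1] at h
  rw [h]
  exact trivAt_gal hn hσ hu3

/-- (E1) `(σ - 1) f` lies in `W` for every function `f` and `σ` in the inertia group
(`GS.trivAt_gal_div` for `f` and for `w f`). -/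
theorem inW_gal_div (hcop : p.Coprime 4) (hn : 0 < n) {σ : Qbar ≃ₐ[ℚ] Qbar}
    (hσ : σ ∈ A.inertiaSubgroupIn ℚ) (hu : u ∈ FF Qbar (p * 4)) (h0 : u ≠ 0) :
    InW p n A (gal σ u / u) := by
  obtain ⟨ι⟩ := nonempty_Qbar_hom
  have hw := isWQ_wQ ι hcop
  have hm : GR.gal σ u ∈ FF Qbar (p * 4) := coeffMap_mem_FF _ hu
  refine ⟨div_mem hm hu, trivAt_gal_div hn hσ hu h0, ?_⟩
  have h := S33.wfun_div (wQ Qbar p 4) hm hu
  rw [S33.wfun_of_mem _ (div_mem hm hu), S33.wfun_gal hcop hw σ hu] at h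
  rw [h]
  exact trivAt_gal_div hn hσ (S33.wfun_mem _ u) (S33.wfun_ne_zero _ hu h0)

theorem Formal_not_dvd_four (hp : p.Prime) (hp2 : p ≠ 2) : ¬ p ∣ 4 := by
  intro h
  have h4 : (4 : ℕ) = 2 ^ 2 := by norm_num
  rw [h4] at h
  exact hp2 ((Nat.prime_dvd_prime_iff_eq hp Nat.prime_two).1 (hp.dvd_of_dvd_pow h))

/-- the exports of GS at level `p * 4` (`GS.Inst.instOut`, `GS.bridgeOut`; `auxPrime p = 2 ∣ 4`). -/
theorem nodal (hp : p.Prime) (hp2 : p ≠ 2) (hA : A.LiesOverPrime p) (hn : 0 < n) (hpn : ¬ p ∣ n) :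
    NodalInertia p 4 n A ∧ NodalFrob p 4 n A := by
  have h4 : ¬ p ∣ 4 := Formal_not_dvd_four hp hp2
  have haux : auxPrime p ∣ 4 := by
    unfold auxPrime
    rw [if_neg hp2]
    exact ⟨2, by norm_num⟩
  obtain ⟨H, hH⟩ := GS.Inst.instOut A p 4 (by norm_num) hp h4 haux hA
  exact GS.bridgeOut A p 4 n H (by norm_num) hp h4 hA hH hpn hn

/-- (E2) the inertia group acts trivially on `W`. -/
theorem InW.fix (hp : p.Prime) (hp2 : p ≠ 2) (hA : A.LiesOverPrime p) (hn : 0 < n) (hpn : ¬ p ∣ n)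
    (hu : InW p n A u) (hK : IsKummer (N := p * 4) n u) {τ : Qbar ≃ₐ[ℚ] Qbar}
    (hτ : τ ∈ A.inertiaSubgroupIn ℚ) : KummerEquiv (p * 4) n u (GR.gal τ u) := by
  obtain ⟨ι⟩ := GS.nonempty_Qbar_hom
  have hcop : p.Coprime 4 := (Nat.Prime.coprime_iff_not_dvd hp).2 (Formal_not_dvd_four hp hp2)
  obtain ⟨hmem, h1, h2⟩ := hu
  exact (nodal hp hp2 hA hn hpn).1 (wQ Qbar p 4) (GS.isWQ_wQ ι hcop) ⟨u, hmem⟩ hK h1 h2 τ hτ

/-- (E3) `φ ^ 2 = p ^ 2` on `W`. -/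
theorem InW.frob (hp : p.Prime) (hp2 : p ≠ 2) (hA : A.LiesOverPrime p) (hn : 0 < n)
    (hpn : ¬ p ∣ n) (hu : InW p n A u) (hK : IsKummer (N := p * 4) n u) {φ : Qbar ≃ₐ[ℚ] Qbar}
    (hφ : A.IsFrobeniusAt φ p) : KummerEquiv (p * 4) n (u ^ (p ^ 2)) (GR.gal (φ * φ) u) := by
  obtain ⟨ι⟩ := GS.nonempty_Qbar_hom
  have hcop : p.Coprime 4 := (Nat.Prime.coprime_iff_not_dvd hp).2 (Formal_not_dvd_four hp hp2)
  obtain ⟨hmem, h1, h2⟩ := hu
  exact (nodal hp hp2 hA hn hpn).2 (wQ Qbar p 4) (GS.isWQ_wQ ι hcop) ⟨u, hmem⟩ hK h1 h2 φ hφ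

end Fermat.Agent.S15.ATP
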