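import Fermat.Agent.S15.ATP.Formal
import Fermat.Agent.S19.A.Up
import Fermat.Agent.S17.WMW.Rat
import Fermat.Agent.S15.Abs.Defs
import Fermat.Agent.GT.Brg.LevelUp
import Fermat.Agent.S15.Red.Canon

/-!
# S15-ATP: the subgroup `W ⊆ J₀(p)[ℓ^∞]` (toric part at `A ∣ p`) and the fields `W_*` of `S15.Raw`

DICTIONARY: `S19.IsKumOf N n x u` (`S19/A/Defs.lean`, API in `S19/A/Dict.lean`: `exists_isKumOf`, `.mul`, `.gal`, `.congr`, `.kummerEquiv`, `.unique`,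
`.eq_zero`, `.isKummer`, `.nsmul_eq_zero`, `isKumOf_one`, `isKumOf_coe`; underlying `S19.W.IsRep` / `S19.W.IsKum`, `S19/W/Weil.lean`, `S19/W/Pair.lean`:
`IsRep.add/.neg/.smul`, `IsKum.pow_of`, `IsKum.div`).  LEVEL: `S19.kummerEquiv_one_descent` (`S19/A/LevelInj.lean`): a Kummer function of level `p`
which is an `n`-th power at level `p * 4` is an `n`-th power at level `p`; `GR.E.isKummer_of_dvd`, `GT.Brg.relfinrank_FF_ne_zero`, `S19.kummerEquiv_up`.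
-/

set_option autoImplicit false
set_option synthInstance.maxHeartbeats 400000

noncomputable section

namespace Fermat.Agent.S15.ATP

open ModularCurve AlgebraicCurve Fermat.Agent.GR Fermat.Agent.S19

/-! ### complements to the dictionary -/

section dict

variable {N n : ℕ} [NeZero N] {x y : JZero N} {u v : LaurentSeries Qb}

theorem J_isKumOf_pow_level (h : IsKumOf N n x u) (k : ℕ) : IsKumOf N (n * k) x (u ^ k) := by
  obtain ⟨hf, D, hk, hD⟩ := h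
  have := isKumOf_coe (N := N) (n := n * k) (y := x) (u := (⟨u, hf⟩ : FB N) ^ k) (D := D)
    ⟨hk.pow_of k, hD⟩
  rwa [SubmonoidClass.coe_pow] at this

theorem J_isKumOf_neg (h : IsKumOf N n x u) : IsKumOf N n (-x) u⁻¹ := by
  obtain ⟨hf, D, h⟩ := h
  have := isKumOf_coe h.neg
  rwa [IntermediateField.coe_inv] at this

theorem J_isKumOf_sub (h : IsKumOf N n x u) (h' : IsKumOf N n y v) :
    IsKumOf N n (x - y) (u / v) := by
  rw [sub_eq_add_neg, div_eq_mul_inv]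
  exact h.mul (J_isKumOf_neg h')

theorem J_isKumOf_nsmul (h : IsKumOf N n x u) (k : ℕ) : IsKumOf N n (k • x) (u ^ k) := by
  induction k with
  | zero =>
    rw [zero_nsmul, pow_zero]
    exact isKumOf_one
  | succ k ih =>
    rw [succ_nsmul, pow_succ]
    exact ih.mul h

end dict

variable {p ℓ : ℕ} [NeZero p] [NeZero (p * 4)] {A : ValuationSubring Qb}

theorem J_isKummer_up {n : ℕ} {x : JZero p} {u : LaurentSeries Qb} (h : IsKumOf p n x u) :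
    IsKummer (N := p * 4) n u :=
  E.isKummer_of_dvd p (p * 4) (Dvd.intro 4 rfl) (GT.Brg.relfinrank_FF_ne_zero (Dvd.intro 4 rfl)) n u
    h.isKummer

/-- injectivity of `J₀(p)[n] → J₀(4 p)[n]`. -/
theorem J_eq_zero_of_up {n : ℕ} (hn : 0 < n) {x : JZero p} {u : LaurentSeries Qb}
    (h : IsKumOf p n x u) (h1 : KummerEquiv (p * 4) n 1 u) : x = 0 := by
  haveI : NeZero n := ⟨hn.ne'⟩
  exact h.eq_zero hn (kummerEquiv_one_descent (Dvd.intro 4 rfl) h.isKummer h1)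

/-! ### the subgroup `W` -/

/-- `x` is a class of `ℓ`-power order which is trivial on both components of the fibre at `A`. -/
def IsW (p ℓ : ℕ) [NeZero p] [NeZero (p * 4)] (A : ValuationSubring Qb) (x : JZero p) : Prop :=
  ∃ (r : ℕ) (u : LaurentSeries Qb), IsKumOf p (ℓ ^ r) x u ∧ InW p (ℓ ^ r) A u

theorem isW_zero (hℓ : 0 < ℓ) : IsW p ℓ A 0 := by
  exact ⟨0, 1, isKumOf_one, inW_one (Nat.pow_pos hℓ)⟩

/-- [bring both to the level `ℓ ^ (r + s)`: `J_isKumOf_pow_level`, `InW.pow_level`, `pow_add`.] -/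
theorem isW_add (hℓ : 0 < ℓ) {x y : JZero p} (hx : IsW p ℓ A x) (hy : IsW p ℓ A y) :
    IsW p ℓ A (x + y) := by
  obtain ⟨r, u, hu, hu'⟩ := hx
  obtain ⟨s, v, hv, hv'⟩ := hy
  have hr : 0 < ℓ ^ r := Nat.pow_pos hℓ
  have hs : 0 < ℓ ^ s := Nat.pow_pos hℓ
  have hrs : 0 < ℓ ^ (r + s) := Nat.pow_pos hℓ
  have e1 : ℓ ^ r * ℓ ^ s = ℓ ^ (r + s) := (pow_add ℓ r s).symm
  have e2 : ℓ ^ s * ℓ ^ r = ℓ ^ (r + s) := by rw [mul_comm, e1]
  have a1 := J_isKumOf_pow_level hu (ℓ ^ s)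
  have a2 := J_isKumOf_pow_level hv (ℓ ^ r)
  have b1 := InW.pow_level hr hs hu'
  have b2 := InW.pow_level hs hr hv'
  rw [e1] at a1 b1
  rw [e2] at a2 b2
  exact ⟨r + s, u ^ (ℓ ^ s) * v ^ (ℓ ^ r), a1.mul a2, InW.mul hrs b1 b2⟩

theorem isW_neg (hℓ : 0 < ℓ) {x : JZero p} (hx : IsW p ℓ A x) : IsW p ℓ A (-x) := by
  obtain ⟨r, u, hu, hu'⟩ := hx
  exact ⟨r, u⁻¹, J_isKumOf_neg hu, InW.inv (Nat.pow_pos hℓ) hu'⟩

/-- the toric part. -/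
def W (p ℓ : ℕ) [NeZero p] [NeZero (p * 4)] (hℓ : 0 < ℓ) (A : ValuationSubring Qb) :
    AddSubgroup (JZero p) where
  carrier := {x | IsW p ℓ A x}
  zero_mem' := isW_zero hℓ
  add_mem' := fun hx hy => isW_add hℓ hx hy
  neg_mem' := fun hx => isW_neg hℓ hx

theorem mem_W {hℓ : 0 < ℓ} {x : JZero p} : x ∈ W p ℓ hℓ A ↔ IsW p ℓ A x := Iff.rfl

/-! ### the formal fields -/

theorem W_le (hℓ : 0 < ℓ) : W p ℓ hℓ A ≤ torInf (JZero p) ℓ := by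
  rintro x ⟨r, u, hu, -⟩
  exact ⟨r, hu.nsmul_eq_zero⟩

theorem W_decomp (hp : p.Prime) (hp2 : p ≠ 2) (hℓ : 0 < ℓ) :
    ∀ σ ∈ A.decompositionSubgroup ℚ, ∀ x ∈ W p ℓ hℓ A, σ • x ∈ W p ℓ hℓ A := by
  rintro σ hσ x ⟨r, u, hu, hu'⟩
  have hcop4 : p.Coprime 4 := by
    have : p.Coprime 2 := (Nat.coprime_primes hp Nat.prime_two).2 hp2
    exact Nat.Coprime.pow_right 2 this
  exact ⟨r, _, hu.gal σ, InW.gal hcop4 (Nat.pow_pos hℓ) hσ hu'⟩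

/-- [`InW.fix`, then `J_eq_zero_of_up` for `σ • x - x` and `gal σ u / u`.] -/
theorem W_fix (hp : p.Prime) (hp2 : p ≠ 2) (hA : A.LiesOverPrime p) (hℓ : ℓ.Prime) (hℓp : ℓ ≠ p) :
    ∀ σ ∈ A.inertiaSubgroupIn ℚ, ∀ x ∈ W p ℓ hℓ.pos A, σ • x = x := by
  rintro σ hσ x ⟨r, u, hK, hW⟩
  have hn : 0 < ℓ ^ r := Nat.pow_pos hℓ.pos
  have hpn : ¬ p ∣ ℓ ^ r := fun h =>
    hℓp ((Nat.prime_dvd_prime_iff_eq hp hℓ).1 (hp.dvd_of_dvd_pow h)).symm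
  obtain ⟨z, hz, hz0, hzu⟩ := InW.fix hp hp2 hA hn hpn hW (J_isKummer_up hK) hσ
  have hu0 : u ≠ 0 := hK.ne_zero
  refine sub_eq_zero.1 (J_eq_zero_of_up hn (J_isKumOf_sub (hK.gal σ) hK) ⟨z, hz, hz0, ?_⟩)
  rw [hzu, one_mul, mul_div_cancel_left₀ _ hu0]

/-- [`InW.frob`, then `J_eq_zero_of_up` for `φ • φ • x - p ^ 2 • x` and `gal (φ * φ) u / u ^ (p ^ 2)`; `GR.I.gal_mul_apply`.] -/
theorem W_frob (hp : p.Prime) (hp2 : p ≠ 2) (hA : A.LiesOverPrime p) (hℓ : ℓ.Prime)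
    (hℓp : ℓ ≠ p) :
    ∀ φ : GQ, A.IsFrobeniusAt φ p → ∀ x ∈ W p ℓ hℓ.pos A, φ • φ • x = (p ^ 2) • x := by
  rintro φ hφ x ⟨r, u, hK, hW⟩
  have hn : 0 < ℓ ^ r := Nat.pow_pos hℓ.pos
  have hpn : ¬ p ∣ ℓ ^ r := fun h =>
    hℓp ((Nat.prime_dvd_prime_iff_eq hp hℓ).1 (hp.dvd_of_dvd_pow h)).symm
  obtain ⟨z, hz, hz0, hzu⟩ := InW.frob hp hp2 hA hn hpn hW (J_isKummer_up hK) hφ
  have hu0 : u ^ (p ^ 2) ≠ 0 := pow_ne_zero _ hK.ne_zero
  have h1 : IsKumOf p (ℓ ^ r) (φ • φ • x) (GR.gal (φ * φ) u) := by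
    rw [GR.I.gal_mul_apply]
    exact (hK.gal φ).gal φ
  refine sub_eq_zero.1 (J_eq_zero_of_up hn (J_isKumOf_sub h1 (J_isKumOf_nsmul hK (p ^ 2)))
    ⟨z, hz, hz0, ?_⟩)
  rw [hzu, one_mul, mul_div_cancel_left₀ _ hu0]

/-! ### `W_inert` -/

theorem J_exists_stable_divisor (N : ℕ) [NeZero N] (x : JZero N) :
    ∃ D₀ : Divisor.degZero (K := Qb) (F := S17.WMW.FB N), (Pic0.mk D₀ : JZero N) = x ∧
      ∀ σ : GQ, σ • x = x → S17.WMW.gal N σ • (D₀ : Divisor Qb (S17.WMW.FB N)) = D₀ :=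
  Red.exists_divisor_fixed N x

theorem J_exists_isKumOf_gal_div {N n : ℕ} [NeZero N] (hn : 0 < n) (σ : GQ) (z : JZero N)
    (h : n • (σ • z - z) = 0) :
    ∃ f : LaurentSeries Qb, f ∈ FF Qb N ∧ f ≠ 0 ∧ IsKumOf N n (σ • z - z) (GR.gal σ f / f) := by
  have hfix : σ • (n • z) = n • z := by
    rw [nsmul_sub, sub_eq_zero] at h
    exact (map_nsmul (DistribSMul.toAddMonoidHom (JZero N) σ) n z).trans h
  obtain ⟨D₀, hD₀, hst⟩ := J_exists_stable_divisor N (n • z)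
  have hσD₀ := hst σ hfix
  obtain ⟨D, rfl⟩ := Pic0.mk_surjective z
  have h1 : (Pic0.mk (n • D) : JZero N) = Pic0.mk D₀ := by
    rw [hD₀]
    rfl
  rw [S17.WMW.mk_eq_mk_iff] at h1
  obtain ⟨f, hf0, hf⟩ := h1
  have hdiv : S17.FF.divf (K := Qb) f =
      n • (D : Divisor Qb (S17.WMW.FB N)) - (D₀ : Divisor Qb (S17.WMW.FB N)) := by
    ext v
    rw [S17.FF.divf_apply, ← hf v]
    rfl
  set g := S17.WMW.gal N σ with hg
  have hgf0 : g • f ≠ 0 := fun h0 => hf0 ((S17.FF.smul_eq_zero_iff' g f).1 h0)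
  have hk : W.IsKum n (g • f / f)
      (g • (D : Divisor Qb (S17.WMW.FB N)) - (D : Divisor Qb (S17.WMW.FB N))) := by
    refine ⟨div_ne_zero hgf0 hf0, ?_⟩
    rw [div_eq_mul_inv, S17.FF.divf_mul hgf0 (inv_ne_zero hf0), S17.FF.divf_inv, S17.FF.divf_smul,
      hdiv, smul_sub, hσD₀, smul_comm g n, nsmul_sub]
    abel
  have hmem : g • (D : Divisor Qb (S17.WMW.FB N)) - (D : Divisor Qb (S17.WMW.FB N)) ∈
      Divisor.degZero (K := Qb) (F := S17.WMW.FB N) :=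
    sub_mem (SemilinearAut.smul_mem_degZero g D.2) D.2
  have hrep : W.IsRep n (σ • (Pic0.mk D : JZero N) - Pic0.mk D) (g • f / f)
      (g • (D : Divisor Qb (S17.WMW.FB N)) - (D : Divisor Qb (S17.WMW.FB N))) :=
    ⟨hk, hmem, rfl⟩
  refine ⟨(f : LaurentSeries Qb), mem_FB_iff.1 f.2, fun h0 => hf0 (Subtype.ext h0), ?_⟩
  have := isKumOf_coe hrep
  rwa [IntermediateField.coe_div, S17.WMW.coe_gal_smul] at this

theorem W_inert (hp : p.Prime) (hp2 : p ≠ 2) (hℓ : 0 < ℓ) :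
    ∀ σ ∈ A.inertiaSubgroupIn ℚ, ∀ z : JZero p, σ • z - z ∈ torInf (JZero p) ℓ →
      σ • z - z ∈ W p ℓ hℓ A := by
  intro σ hσ z hz
  obtain ⟨r, hr⟩ := hz
  have hn : 0 < ℓ ^ r := Nat.pow_pos hℓ
  have hcop4 : p.Coprime 4 := by
    have : p.Coprime 2 := (Nat.coprime_primes hp Nat.prime_two).2 hp2
    exact Nat.Coprime.pow_right 2 this
  obtain ⟨f, hf, hf0, hK⟩ := J_exists_isKumOf_gal_div hn σ z hr
  exact ⟨r, _, hK, inW_gal_div hcop4 hn hσ (E.BR8_FF_le Qb (Dvd.intro 4 rfl) hf) hf0⟩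

end Fermat.Agent.S15.ATP
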